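import Fermat.Agent.DIV.Model.Prim
import Fermat.Agent.DIV.Geo.Defs
import Fermat.Agent.DIV.BaseChange
import Fermat.Agent.S18.W.Infty

set_option autoImplicit false
set_option synthInstance.maxHeartbeats 400000
set_option maxHeartbeats 1000000
set_option linter.style.haveILetI false

/-!
# DIV tasks DV16-ModelA (the first five statements) and DV17-ModelB (`top_C`, `aevalAeval_iotaF`, `exists_geo`) : the geometric situation for `X₀(N)` over `ℂ`

* `mem_cl_empty_iff`: `adjoin ℚ ∅ = ⊥`; `s ∈ cl ∅ ↔ IsAlgebraic ℚ s` (`IntermediateField.adjoin_empty`, `IntermediateField.isAlgebraic_iff`/`botEquiv`, or `IsAlgebraic.tower_top` and `IsAlgebraic.restrictScalars`/`Algebra.IsAlgebraic.trans`);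
  `iotaKC a` is algebraic over `ℚ` (`AlgebraicClosure.isAlgebraic ℚ`, `IsAlgebraic.map`/`isAlgebraic_ringHom..`); an algebraic element of `Kc` is in the range: see `htr` in `NV.exists_infinite_orbit` and `S24.twist_mem_range_iotaK_of_isAlgebraic` in `Fermat/Agent/S24/Twist.lean`
  (the range of `iotaKC` is an algebraically closed subfield).
* `smul_jF`: `Subtype.ext`; `coe_arithmeticGalois_smul`; `(C24.jF N).1 = C24.Jser 1 = jqNModC Kc 1`, `ModularCurve.coeffMap_jqNModC`.
* `exists_o`: `Fermat.Agent.S18.Infty.exists_place_of_order (C24.mffC N) (C24.jF N) _` (`S18.Infty.order_jq`, `ModularCurve.jqNModC_one`) gives `o` with `o.ord f = f.1.order`.  `coeffMap σ` preserves the order of a Laurent series (the supports are equal), so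
  `f ∈ O_o → g • f ∈ O_o`; conclude by `S24.place_ext_of_le` (`smul_mem_smul_iff`-type: `f ∈ (g • o).toValuationSubring ↔ g⁻¹ • f ∈ o.toValuationSubring`, `ValuationSubring.mem_pointwise_smul_iff_inv_smul_mem`; `S24.mem_iff_ord_nonneg`).
* `top_C`: `L := adjoin Kc {jF, iotaF y}`.  (a) `∀ f, iotaF N f ∈ L`: `f ∈ adjoin Kb {j, y} = ⊤`, `IntermediateField.adjoin_induction` (`iotaF_algebraMap`, `iotaF_jF`, `map_add`, `map_mul`, `map_inv₀`).
  (b) every element of `C24.FN N` is `u / w` with `u w ∈ C24.A0 N = Algebra.adjoin Kc {Jser d}` (`C24.exists_div_A0`) and `C24.Jser d = coeffMap iotaKC (S24.Jser d)` (`NV.Bridge.coeffMap_Jser`) is (the underlying series of) `iotaF` of an element; `Algebra.adjoin_induction`.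
* `aevalAeval_iotaF`: `Polynomial.induction_on` twice, or both sides are ring homs `Kb[X][Y] →+* C24.FN N` which agree on `C (C a)`, `C X`, `X` (`Polynomial.ringHom_ext`).
* `exists_geo`: take `y₀, Φ₀` from `exists_plane_model (S24.isFF1_FN N) (S24.transcendental_jF N)`, `y = iotaF N y₀`, `Φ = Φ₀.map (mapRingHom iotaKC)`; `act_y` is `arC_iotaF` (file `DIV/BC/Desc.lean`; `g • f = arC N σ f` is `rfl`) + `fix_iotaKC`;
  `derivative_map`; `iotaF` is injective.
-/

namespace Fermat.Agent.DIV

open AlgebraicCurve Fermat.Agent.NV Polynomial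
open Fermat.Agent.S24 (Kb)
open Fermat.Agent.C24 (Kc)
open scoped Polynomial.Bivariate

theorem Inst.isAlgebraic_iff_mem_range (s : Kc) : IsAlgebraic ℚ s ↔ s ∈ Set.range iotaKC := by
  letI : Algebra Kb Kc := iotaKC.toAlgebra
  haveI : IsScalarTower ℚ Kb Kc := IsScalarTower.of_algebraMap_eq fun r => by
    rw [eq_ratCast, eq_ratCast]
    exact (map_ratCast (algebraMap Kb Kc) r).symm
  constructor
  · intro h
    have halg : IsAlgebraic Kb s := h.tower_top Kb
    have hint : IsIntegral Kb s := halg.isIntegral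
    have hdeg := IsAlgClosed.degree_eq_one_of_irreducible Kb (minpoly.irreducible hint)
    exact minpoly.mem_range_of_degree_eq_one Kb s hdeg
  · rintro ⟨a, rfl⟩
    have ha : IsAlgebraic ℚ a := (AlgebraicClosure.isAlgebraic ℚ).isAlgebraic a
    exact ha.algebraMap (A := Kc)

theorem mem_cl_empty_iff (s : Kc) : s ∈ cl (∅ : Set Kc) ↔ s ∈ Set.range iotaKC := by
  rw [mem_cl, ← Inst.isAlgebraic_iff_mem_range]
  haveI : Algebra.IsAlgebraic ℚ (IntermediateField.adjoin ℚ (∅ : Set Kc)) :=
    IntermediateField.isAlgebraic_adjoin (fun x hx => absurd hx (Set.notMem_empty x))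
  constructor
  · intro h
    exact h.restrictScalars ℚ
  · intro h
    exact h.tower_top _

theorem fix_iotaKC {σ : Kc ≃ₐ[ℚ] Kc} (hσ : σ ∈ fixer (∅ : Set Kc)) (a : Kb) :
    σ (iotaKC a) = iotaKC a :=
  mem_fixer.1 hσ _ ((mem_cl_empty_iff _).2 ⟨a, rfl⟩)

instance : Uncountable Kc := by
  show Uncountable ℂ
  rw [← Cardinal.aleph0_lt_mk_iff, Cardinal.mk_complex]
  exact Cardinal.aleph0_lt_continuum

theorem smul_jF (N : ℕ) [NeZero N] (σ : Kc ≃ₐ[ℚ] Kc) :
    ModularCurve.arithmeticGalois (ModularCurve.modularFunctionFieldFull N) σ • C24.jF N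
      = C24.jF N := by
  apply Subtype.ext
  rw [ModularCurve.coe_arithmeticGalois_smul]
  show ModularCurve.coeffMap (σ : Kc →+* Kc) (C24.Jser 1) = C24.Jser 1
  unfold C24.Jser
  rw [dif_neg one_ne_zero, ModularCurve.coeffMap_jqNModC]

theorem exists_o (N : ℕ) [NeZero N] : ∃ o : Place Kc (C24.FN N),
    (∀ σ : Kc ≃ₐ[ℚ] Kc,
      ModularCurve.arithmeticGalois (ModularCurve.modularFunctionFieldFull N) σ • o = o) ∧
    o.ord (C24.jF N) < 0 := by
  have hj1 : (C24.jF N).1.order = -1 := by
    show (C24.Jser 1).order = -1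
    unfold C24.Jser
    rw [dif_neg one_ne_zero, ModularCurve.jqNModC_one]
    exact S18.Infty.order_jq Kc
  obtain ⟨o, -, ho⟩ := S18.Infty.exists_place_of_order (C24.mffC N) (C24.jF N) hj1
  have hj0 : C24.jF N ≠ 0 := by
    intro h
    rw [h] at hj1
    have : (0 : LaurentSeries Kc).order = -1 := hj1
    rw [HahnSeries.order_zero] at this
    omega
  refine ⟨o, ?_, by rw [ho _ hj0, hj1]; norm_num⟩
  intro σ
  set g := ModularCurve.arithmeticGalois (ModularCurve.modularFunctionFieldFull N) σ with hg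
  symm
  apply S24.place_ext_of_le
  intro f hf
  rcases eq_or_ne f 0 with rfl | hf0
  · exact zero_mem _
  rw [S24.mem_iff_ord_nonneg] at hf ⊢
  have h1 := AlgebraicCurve.SemilinearAut.ord_smul g o (g⁻¹ • f)
  rw [smul_inv_smul] at h1
  rw [h1]
  have hf1 : g⁻¹ • f ≠ 0 := by
    intro h
    apply hf0
    have := congrArg (g • ·) h
    simpa using this
  rw [ho _ hf1]
  rw [ho _ hf0] at hf
  have h2 : (g • (g⁻¹ • f)).1.order = (g⁻¹ • f).1.order := by
    rw [hg, ModularCurve.coe_arithmeticGalois_smul]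
    exact Canon.order_coeffMap _ _
  rw [smul_inv_smul] at h2
  rw [← h2]
  exact hf

theorem top_C (N : ℕ) [NeZero N] {y : S24.FN N}
    (hy : IntermediateField.adjoin Kb {S24.jF N, y} = ⊤) :
    IntermediateField.adjoin Kc {C24.jF N, iotaF N y} = ⊤ := by
  set L := IntermediateField.adjoin Kc {C24.jF N, iotaF N y} with hL
  -- (a)
  have ha : ∀ f : S24.FN N, iotaF N f ∈ L := by
    intro f
    have hf : f ∈ IntermediateField.adjoin Kb {S24.jF N, y} := by rw [hy]; trivial
    induction hf using IntermediateField.adjoin_induction with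
    | mem x hx =>
      rcases hx with rfl | hx
      · rw [iotaF_jF]
        exact IntermediateField.subset_adjoin _ _ (Set.mem_insert _ _)
      · rw [Set.mem_singleton_iff] at hx
        rw [hx]
        exact IntermediateField.subset_adjoin _ _ (Set.mem_insert_of_mem _ rfl)
    | algebraMap c =>
      rw [iotaF_algebraMap]
      exact L.algebraMap_mem _
    | add x z _ _ hx hz => rw [map_add]; exact add_mem hx hz
    | inv x _ hx => rw [map_inv₀]; exact inv_mem hx
    | mul x z _ _ hx hz => rw [map_mul]; exact mul_mem hx hz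
  -- (b)
  have hb : ∀ a ∈ C24.A0 N, ∃ h : a ∈ C24.mffC N, (⟨a, h⟩ : C24.FN N) ∈ L := by
    intro a haA
    unfold C24.A0 at haA
    induction haA using Algebra.adjoin_induction with
    | mem a ha' =>
      obtain ⟨d, hd, rfl⟩ := ha'
      refine ⟨C24.A0_le N _ (C24.Jser_mem_A0 hd), ?_⟩
      have := ha ⟨S24.Jser d, S24.A0_le N _ (S24.Jser_mem_A0 hd)⟩
      convert this using 1
      apply Subtype.ext
      rw [coe_iotaF]
      exact (Bridge.coeffMap_Jser d).symm
    | algebraMap r =>
      exact ⟨(C24.mffC N).algebraMap_mem r, L.algebraMap_mem r⟩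
    | add a b _ _ h1 h2 =>
      obtain ⟨k1, m1⟩ := h1
      obtain ⟨k2, m2⟩ := h2
      refine ⟨add_mem k1 k2, ?_⟩
      have e : (⟨a + b, add_mem k1 k2⟩ : C24.FN N) = ⟨a, k1⟩ + ⟨b, k2⟩ :=
        Subtype.ext (IntermediateField.coe_add (C24.mffC N) ⟨a, k1⟩ ⟨b, k2⟩).symm
      rw [e]
      exact add_mem m1 m2
    | mul a b _ _ h1 h2 =>
      obtain ⟨k1, m1⟩ := h1
      obtain ⟨k2, m2⟩ := h2
      refine ⟨mul_mem k1 k2, ?_⟩
      have e : (⟨a * b, mul_mem k1 k2⟩ : C24.FN N) = ⟨a, k1⟩ * ⟨b, k2⟩ :=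
        Subtype.ext (IntermediateField.coe_mul (C24.mffC N) ⟨a, k1⟩ ⟨b, k2⟩).symm
      rw [e]
      exact mul_mem m1 m2
  rw [eq_top_iff]
  intro f _
  obtain ⟨u, hu, w, hw, -, e⟩ := C24.exists_div_A0 N f.1 f.2
  obtain ⟨k1, m1⟩ := hb u hu
  obtain ⟨k2, m2⟩ := hb w hw
  have : f = (⟨u, k1⟩ : C24.FN N) / ⟨w, k2⟩ :=
    Subtype.ext (e.trans (IntermediateField.coe_div (C24.mffC N) ⟨u, k1⟩ ⟨w, k2⟩).symm)
  rw [this]
  exact div_mem m1 m2

theorem aevalAeval_iotaF (N : ℕ) [NeZero N] (x y : S24.FN N) (Ψ : Kb[X][Y]) :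
    aevalAeval (iotaF N x) (iotaF N y) (Ψ.map (mapRingHom iotaKC)) =
      iotaF N (aevalAeval x y Ψ) := by
  have h1 : ∀ p : Kb[X], aeval (iotaF N x) (p.map iotaKC) = iotaF N (aeval x p) := by
    intro p
    induction p using Polynomial.induction_on' with
    | add p q hp hq => rw [Polynomial.map_add, map_add, map_add, map_add, hp, hq]
    | monomial n a =>
      rw [Polynomial.map_monomial, aeval_monomial, aeval_monomial, map_mul, map_pow,
        iotaF_algebraMap]
  induction Ψ using Polynomial.induction_on' with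
  | add p q hp hq => rw [Polynomial.map_add, map_add, map_add, map_add, hp, hq]
  | monomial n a =>
    rw [Polynomial.map_monomial, ← C_mul_X_pow_eq_monomial, ← C_mul_X_pow_eq_monomial, map_mul,
      map_mul, map_pow, map_pow, aevalAeval_C, aevalAeval_C, aevalAeval_Y, aevalAeval_Y, map_mul,
      map_pow, coe_mapRingHom, h1]

theorem exists_geo (N : ℕ) [NeZero N] : ∃ 𝔤 : Geo Kc (C24.FN N),
    𝔤.act = ModularCurve.arithmeticGalois (ModularCurve.modularFunctionFieldFull N) ∧
    𝔤.x = C24.jF N := by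
  obtain ⟨y₀, Φ₀, htop, hroot, hsep⟩ :=
    exists_plane_model (S24.isFF1_FN N) (S24.transcendental_jF N)
  obtain ⟨o, ho1, ho2⟩ := exists_o N
  refine ⟨{ act := ModularCurve.arithmeticGalois (ModularCurve.modularFunctionFieldFull N)
            baseAut_act := fun σ a => rfl
            x := C24.jF N
            y := iotaF N y₀
            Φ := Φ₀.map (mapRingHom iotaKC)
            act_x := smul_jF N
            act_y := fun σ hσ => arC_iotaF N σ (fun a => fix_iotaKC hσ a) y₀
            top := top_C N htop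
            coeff_mem := fun i j => by
              rw [coeff_map, coe_mapRingHom, coeff_map, mem_cl_empty_iff]
              exact ⟨_, rfl⟩
            root := by
              rw [← iotaF_jF, aevalAeval_iotaF, hroot, map_zero]
            sep := by
              rw [← iotaF_jF, derivative_map, aevalAeval_iotaF]
              exact (map_ne_zero (iotaF N)).2 hsep
            o := o
            act_o := ho1
            ord_o := ho2 }, rfl, rfl⟩

end Fermat.Agent.DIV
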