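import Fermat.Agent.S24.FF1

set_option autoImplicit false

/-!
# DIV task DV15-Prim : a function field of characteristic `0` has a plane model  (Mathlib + `S24/FF1.lean`)

`F / K` a function field (`S24.IsFF1`), `x` transcendental.  Then `F = K(x, y)` and there is `Φ ∈ K[X][Y]` with `Φ(x,y) = 0`, `∂Φ/∂Y (x,y) ≠ 0`.

PROOF.  `F` is finite over `K⟮x⟯` (`IsFF1.finiteDimensional h hx`) and separable (characteristic `0`), so `K⟮x⟯⟮y⟯ = ⊤` for some `y` (`Field.exists_primitive_element`); hence `adjoin K {x, y} = ⊤`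
(`IntermediateField.adjoin_adjoin_left`, `IntermediateField.restrictScalars_eq_top_iff`/`restrictScalars_top`; `Set.union_singleton`/`Set.pair_comm`).
Let `p = minpoly K⟮x⟯ y`: `aeval y p = 0`, `aeval y (derivative p) ≠ 0` (`Polynomial.Separable.aeval_derivative_ne_zero` with `Algebra.IsSeparable.isSeparable`, or by minimality of the degree: `minpoly.aeval_ne_zero_of_dvdNotUnit_minpoly`/`minpoly.degree_le_of_ne_zero`).
Every element of `K⟮x⟯` is `aeval x r / aeval x s` (`IntermediateField.mem_adjoin_simple_iff`).  Choose for the finitely many coefficients of `p` a common denominator: `d : K[X]`, `aeval x d ≠ 0`, and `c i : K[X]` with `aeval x d * ↑(p.coeff i) = aeval x (c i)`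
(product of the denominators; or `IsLocalization.integerNormalization` for `IsFractionRing (Algebra.adjoin K {x}) K⟮x⟯`, `open scoped IntermediateField.algebraAdjoinAdjoin`).
`Φ := ∑ i ∈ range (p.natDegree + 1), C (c i) * X ^ i`.  Then `Φ(x,y) = aeval x d * aeval y p = 0`, `(derivative Φ)(x,y) = aeval x d * aeval y (derivative p) ≠ 0`.
(`Polynomial.aevalAeval x y Φ = eval₂ (aeval x).toRingHom y Φ`-type unfolding: `Polynomial.aevalAeval_apply`/`coe_aevalAeval_eq_evalEval`; `Polynomial.eval₂_finset_sum`, `Polynomial.aeval_eq_sum_range`, `Polynomial.derivative_sum`, `derivative_C_mul_X_pow`.)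
-/

namespace Fermat.Agent.DIV

open Fermat.Agent.S24 Polynomial IntermediateField
open scoped Polynomial.Bivariate

theorem prim_aevalAeval_eq {K F : Type*} [Field K] [Field F] [Algebra K F] (x y : F)
    (Φ : K[X][Y]) :
    aevalAeval x y Φ = (Φ.map (aeval x : K[X] →ₐ[K] F).toRingHom).eval y := by
  induction Φ using Polynomial.induction_on' with
  | add p q hp hq => rw [map_add, hp, hq, Polynomial.map_add, eval_add]
  | monomial n a =>
    rw [← C_mul_X_pow_eq_monomial, map_mul, aevalAeval_C, map_pow, aevalAeval_Y, Polynomial.map_mul,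
      Polynomial.map_pow, map_C, map_X, eval_mul, eval_C, eval_pow, eval_X]
    rfl

theorem prim_clear {K F : Type*} [Field K] [Field F] [Algebra K F] (x : F) (p : K⟮x⟯[X]) :
    ∃ (d : K[X]) (Φ : K[X][X]), aeval x d ≠ 0 ∧
      Φ.map (aeval x : K[X] →ₐ[K] F).toRingHom = C (aeval x d) * p.map (algebraMap K⟮x⟯ F) := by
  induction p using Polynomial.induction_on' with
  | add p q hp hq =>
    obtain ⟨d₁, Φ₁, h₁, e₁⟩ := hp
    obtain ⟨d₂, Φ₂, h₂, e₂⟩ := hq
    refine ⟨d₁ * d₂, C d₂ * Φ₁ + C d₁ * Φ₂, by rw [map_mul]; exact mul_ne_zero h₁ h₂, ?_⟩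
    rw [Polynomial.map_add, Polynomial.map_mul, Polynomial.map_mul, e₁, e₂, map_C, map_C,
      Polynomial.map_add, map_mul (aeval x), C_mul]
    simp only [AlgHom.toRingHom_eq_coe, RingHom.coe_coe]
    ring
  | monomial n a =>
    obtain ⟨r, s, hrs⟩ := (mem_adjoin_simple_iff K (a : F)).1 a.2
    by_cases hs : aeval x s = 0
    · refine ⟨1, 0, by simp, ?_⟩
      have : a = 0 := Subtype.ext (by rw [hrs, hs, div_zero]; rfl)
      simp [this]
    · refine ⟨s, monomial n r, hs, ?_⟩
      rw [map_monomial, map_monomial, C_mul_monomial]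
      congr 1
      show aeval x r = aeval x s * (a : F)
      rw [hrs]
      field_simp

theorem exists_plane_model {K F : Type*} [Field K] [CharZero K] [Field F] [Algebra K F]
    (h : IsFF1 K F) {x : F} (hx : Transcendental K x) :
    ∃ (y : F) (Φ : K[X][Y]), IntermediateField.adjoin K {x, y} = ⊤ ∧ aevalAeval x y Φ = 0 ∧
      aevalAeval x y (derivative Φ) ≠ 0 := by
  haveI := IsFF1.finiteDimensional h hx
  haveI : CharZero K⟮x⟯ := charZero_of_injective_algebraMap (algebraMap K K⟮x⟯).injective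
  obtain ⟨y, hy⟩ := Field.exists_primitive_element K⟮x⟯ F
  obtain ⟨d, Φ, hd, hΦ⟩ := prim_clear x (minpoly K⟮x⟯ y)
  refine ⟨y, Φ, ?_, ?_, ?_⟩
  · have h1 := adjoin_adjoin_left K ({x} : Set F) ({y} : Set F)
    rw [hy, restrictScalars_top] at h1
    rw [h1]
    rfl
  · rw [prim_aevalAeval_eq, hΦ, eval_mul, eval_C, eval_map_algebraMap, minpoly.aeval, mul_zero]
  · rw [prim_aevalAeval_eq, ← derivative_map, hΦ, derivative_C_mul, derivative_map, eval_mul, eval_C,
      eval_map_algebraMap]
    refine mul_ne_zero hd ?_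
    exact (Algebra.IsSeparable.isSeparable K⟮x⟯ y).aeval_derivative_ne_zero (minpoly.aeval _ _)

end Fermat.Agent.DIV
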